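import Mathlib
import Fermat.Agent.LT.T7.H305.MatchSpec
import Fermat.Agent.LT.T5.H415.AutT5

/-!
# Row LT, tower T7, leaf T7.L2.1.C2.1b `H305.TorCommC305` (helper233, SPARE of row 2360)

OFF-MAIN.  PROVED VERBATIM: `torCommC233 (K) : H305.TorCommC305 K` -- the twisted centraliser of
`δ` in `GL₂(𝔸_K)` is commutative if `N δ` is elliptic regular.  No hole, nothing assumed.
ADDITIVE (new names only, suffix `233`).

Route: `σ_𝔸^l = 1` (`T5.H415.onG_iterate415`, helper415), so `x⁻¹ δ σ(x) = δ` gives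
`x⁻¹ N(δ) x = N(δ)`; the discriminant of `N δ` is not zero (the characteristic polynomial is the
image of an irreducible polynomial, which is not a square), hence a unit of `𝔸_K`; two matrices
which commute with a `2 × 2` matrix with invertible discriminant over a commutative ring commute
(`comm_of_comm_disc233`, Cramer, MATHLIB ONLY).
-/

set_option autoImplicit false

open AutomorphicForm IsDedekindDomain NumberField MeasureTheory

noncomputable section

namespace Fermat.Agent.LT.T7.H233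

open Fermat.Agent.LT.H556 Fermat.Agent.LT.H556.A0 Fermat.Agent.LT.T7

/-! ## 1. Cramer (Mathlib only) -/

theorem eq_zero_of_sq_mul233 {A : Type*} [CommRing A] {D Di X : A} (hDi : D * Di = 1)
    (h : D ^ 2 * X = 0) : X = 0 := by
  linear_combination Di ^ 2 * h - X * (D * Di + 1) * hDi

/-- The coordinates `(t, q, r)` of a matrix commuting with `g` are proportional to those of
`g`, with the factor `μ / D`. -/
theorem prop_of_comm233 {A : Type*} [CommRing A] (g x : Matrix (Fin 2) (Fin 2) A)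
    (hx : x * g = g * x) :
    (x 0 0 - x 1 1) * ((g 0 0 - g 1 1) ^ 2 + 4 * g 0 1 * g 1 0)
        = ((x 0 0 - x 1 1) * (g 0 0 - g 1 1) + 2 * x 0 1 * g 1 0 + 2 * x 1 0 * g 0 1)
          * (g 0 0 - g 1 1) ∧
      x 0 1 * ((g 0 0 - g 1 1) ^ 2 + 4 * g 0 1 * g 1 0)
        = ((x 0 0 - x 1 1) * (g 0 0 - g 1 1) + 2 * x 0 1 * g 1 0 + 2 * x 1 0 * g 0 1)
          * g 0 1 ∧
      x 1 0 * ((g 0 0 - g 1 1) ^ 2 + 4 * g 0 1 * g 1 0)
        = ((x 0 0 - x 1 1) * (g 0 0 - g 1 1) + 2 * x 0 1 * g 1 0 + 2 * x 1 0 * g 0 1)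
          * g 1 0 := by
  have e00 := congrFun (congrFun hx 0) 0
  have e01 := congrFun (congrFun hx 0) 1
  have e10 := congrFun (congrFun hx 1) 0
  simp only [Matrix.mul_apply, Fin.sum_univ_two] at e00 e01 e10
  refine ⟨?_, ?_, ?_⟩
  · linear_combination (2 * g 1 0) * e01 + (-2 * g 0 1) * e10
  · linear_combination (-(g 0 0 - g 1 1)) * e01 + (2 * g 0 1) * e00
  · linear_combination (g 0 0 - g 1 1) * e10 + (-2 * g 1 0) * e00

/-- **Cramer.**  Two matrices which commute with a `2 × 2` matrix with invertible discriminant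
over a commutative ring commute. -/
theorem comm_of_comm_disc233 {A : Type*} [CommRing A] (g x y : Matrix (Fin 2) (Fin 2) A)
    (hD : IsUnit ((g 0 0 - g 1 1) ^ 2 + 4 * g 0 1 * g 1 0))
    (hx : x * g = g * x) (hy : y * g = g * y) : x * y = y * x := by
  obtain ⟨Di, hDi⟩ := hD.exists_right_inv
  obtain ⟨ht, hq, hr⟩ := prop_of_comm233 g x hx
  obtain ⟨ht', hq', hr'⟩ := prop_of_comm233 g y hy
  set D := (g 0 0 - g 1 1) ^ 2 + 4 * g 0 1 * g 1 0 with hDdef
  set μ := (x 0 0 - x 1 1) * (g 0 0 - g 1 1) + 2 * x 0 1 * g 1 0 + 2 * x 1 0 * g 0 1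
  set μ' := (y 0 0 - y 1 1) * (g 0 0 - g 1 1) + 2 * y 0 1 * g 1 0 + 2 * y 1 0 * g 0 1
  have h1 : x 0 1 * y 1 0 - y 0 1 * x 1 0 = 0 := by
    apply eq_zero_of_sq_mul233 hDi
    linear_combination (y 1 0 * D) * hq + (μ * g 0 1) * hr' - (x 1 0 * D) * hq'
      - (μ' * g 0 1) * hr
  have h2 : (x 0 0 - x 1 1) * y 0 1 - (y 0 0 - y 1 1) * x 0 1 = 0 := by
    apply eq_zero_of_sq_mul233 hDi
    linear_combination (y 0 1 * D) * ht + (μ * (g 0 0 - g 1 1)) * hq' - (x 0 1 * D) * ht'
      - (μ' * (g 0 0 - g 1 1)) * hq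
  have h3 : x 1 0 * (y 0 0 - y 1 1) - y 1 0 * (x 0 0 - x 1 1) = 0 := by
    apply eq_zero_of_sq_mul233 hDi
    linear_combination ((y 0 0 - y 1 1) * D) * hr + (μ * g 1 0) * ht'
      - ((x 0 0 - x 1 1) * D) * hr' - (μ' * g 1 0) * ht
  ext i j
  fin_cases i <;> fin_cases j
  · simp only [Fin.zero_eta, Matrix.mul_apply, Fin.sum_univ_two]
    linear_combination h1
  · simp only [Fin.zero_eta, Fin.mk_one, Matrix.mul_apply, Fin.sum_univ_two]
    linear_combination h2
  · simp only [Fin.zero_eta, Fin.mk_one, Matrix.mul_apply, Fin.sum_univ_two]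
    linear_combination h3
  · simp only [Fin.mk_one, Matrix.mul_apply, Fin.sum_univ_two]
    linear_combination (-1 : A) * h1

/-! ## 2. The discriminant of an elliptic regular element -/

/-- The discriminant of a matrix whose characteristic polynomial is the image of an irreducible
polynomial over a subfield is not zero. -/
theorem disc_ne_zero233 {F : Type*} [Field F] [CharZero F] (k : Subfield F)
    (M : Matrix (Fin 2) (Fin 2) F)
    (h : ∃ Q : Polynomial k, Irreducible Q ∧ Q.map (algebraMap k F) = M.charpoly) :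
    (M 0 0 - M 1 1) ^ 2 + 4 * M 0 1 * M 1 0 ≠ 0 := by
  obtain ⟨Q, hQ, hmap⟩ := h
  intro h0
  have hinj : Function.Injective (algebraMap k F) := (algebraMap k F).injective
  have hc := Matrix.charpoly_fin_two M
  have htr : M.trace = M 0 0 + M 1 1 := Matrix.trace_fin_two M
  have hdet : M.det = M 0 0 * M 1 1 - M 0 1 * M 1 0 := Matrix.det_fin_two M
  -- the coefficient of `X` of `Q`
  have hc1 : algebraMap k F (Q.coeff 1) = -M.trace := by
    have := congrArg (fun p => Polynomial.coeff p 1) hmap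
    simp only [Polynomial.coeff_map] at this
    rw [this, hc]
    simp [Polynomial.coeff_C, Polynomial.coeff_X_pow]
  set τ : k := -Q.coeff 1 / 2 with hτ
  have hτF : algebraMap k F τ = M.trace / 2 := by
    rw [hτ, map_div₀, map_neg, hc1, map_ofNat, neg_neg]
  have hQeq : Q = (Polynomial.X - Polynomial.C τ) ^ 2 := by
    apply Polynomial.map_injective _ hinj
    rw [hmap, hc, Polynomial.map_pow, Polynomial.map_sub, Polynomial.map_X, Polynomial.map_C,
      hτF]
    have hdet2 : M.det = (M.trace / 2) ^ 2 := by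
      rw [htr, hdet]
      linear_combination (-1 / 4 : F) * h0
    have htr2 : M.trace = 2 * (M.trace / 2) := by ring
    rw [hdet2]
    conv_lhs => rw [htr2]
    simp only [map_mul, map_pow, map_ofNat]
    ring_nf
  exact hQ.not_isSquare ⟨Polynomial.X - Polynomial.C τ, by rw [hQeq, sq]⟩

/-! ## 3. The leaf -/

section Leaf

variable {K : Type} [Field K] [NumberField K]

theorem mem_tA_iff233 (s : T5.AdelicAut K) (δ : GL (Fin 2) K) (x : G K) :
    x ∈ H305.tA305 s δ ↔ x⁻¹ * T5.ratG δ * s.onG x = T5.ratG δ := Iff.rfl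

theorem onG_of_mem233 (s : T5.AdelicAut K) (δ : GL (Fin 2) K) (x : G K)
    (hx : x ∈ H305.tA305 s δ) : s.onG x = (T5.ratG δ)⁻¹ * x * T5.ratG δ := by
  have h := (mem_tA_iff233 s δ x).1 hx
  calc s.onG x = (T5.ratG δ)⁻¹ * x * (x⁻¹ * T5.ratG δ * s.onG x) := by group
    _ = (T5.ratG δ)⁻¹ * x * T5.ratG δ := by rw [h]

theorem normUpTo_succ233 (s : T5.AdelicAut K) (n : ℕ) (δ : GL (Fin 2) K) :
    s.normUpTo (n + 1) δ = δ * s.onRat (s.normUpTo n δ) := rfl

theorem normUpTo_zero233 (s : T5.AdelicAut K) (δ : GL (Fin 2) K) :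
    s.normUpTo 0 δ = 1 := rfl

/-- `σ^j (x) = N_j(δ)⁻¹ x N_j(δ)` on the twisted centraliser. -/
theorem iterate_onG_of_mem233 (s : T5.AdelicAut K)
    (hrat : ∀ γ : GL (Fin 2) K, s.onG (T5.ratG γ) = T5.ratG (s.onRat γ))
    (δ : GL (Fin 2) K) (x : G K) (hx : x ∈ H305.tA305 s δ) (j : ℕ) :
    (⇑s.onG)^[j] x = (T5.ratG (s.normUpTo j δ))⁻¹ * x * T5.ratG (s.normUpTo j δ) := by
  induction j with
  | zero => simp [normUpTo_zero233]
  | succ j ih =>
    rw [Function.iterate_succ_apply', ih, map_mul, map_mul, map_inv, hrat,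
      onG_of_mem233 s δ x hx, normUpTo_succ233, map_mul]
    group

/-- The members of the twisted centraliser commute with `N δ`. -/
theorem comm_norm_of_mem233 (s : T5.AdelicAut K) (l : ℕ) (k : Subfield K)
    (hc : T5.IsCyclicOfDegree s l k)
    (hrat : ∀ γ : GL (Fin 2) K, s.onG (T5.ratG γ) = T5.ratG (s.onRat γ))
    (δ : GL (Fin 2) K) (x : G K) (hx : x ∈ H305.tA305 s δ) :
    x * T5.ratG (s.normUpTo l δ) = T5.ratG (s.normUpTo l δ) * x := by
  have h1 := iterate_onG_of_mem233 s hrat δ x hx l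
  rw [T5.H415.onG_iterate415 s l k hc] at h1
  calc x * T5.ratG (s.normUpTo l δ)
      = T5.ratG (s.normUpTo l δ)
          * ((T5.ratG (s.normUpTo l δ))⁻¹ * x * T5.ratG (s.normUpTo l δ)) := by group
    _ = T5.ratG (s.normUpTo l δ) * x := by rw [← h1]

theorem ratG_coe233 (γ : GL (Fin 2) K) (i j : Fin 2) :
    ((T5.ratG γ : G K) : Matrix (Fin 2) (Fin 2) (Adl K)) i j
      = algebraMap K (Adl K) ((γ : Matrix (Fin 2) (Fin 2) K) i j) := rfl

variable (K)

/-- **LEAF T7.L2.1.C2.1b `TorCommC305`, VERBATIM.** -/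
theorem torCommC233 : H305.TorCommC305 K := by
  intro R _ s l k 𝔫 hc hA δ hell x hx y hy
  have hxg := comm_norm_of_mem233 s l k hc hA.rat δ x hx
  have hyg := comm_norm_of_mem233 s l k hc hA.rat δ y hy
  set γ := s.normUpTo l δ with hγ
  have hD0 := disc_ne_zero233 k (γ : Matrix (Fin 2) (Fin 2) K) hell
  have hDu : IsUnit
      ((((T5.ratG γ : G K) : Matrix (Fin 2) (Fin 2) (Adl K)) 0 0
        - ((T5.ratG γ : G K) : Matrix (Fin 2) (Fin 2) (Adl K)) 1 1) ^ 2
        + 4 * ((T5.ratG γ : G K) : Matrix (Fin 2) (Fin 2) (Adl K)) 0 1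
          * ((T5.ratG γ : G K) : Matrix (Fin 2) (Fin 2) (Adl K)) 1 0) := by
    have h := (IsUnit.mk0 _ hD0).map (algebraMap K (Adl K))
    simpa only [ratG_coe233, map_add, map_sub, map_mul, map_pow, map_ofNat] using h
  have hxm : (x : Matrix (Fin 2) (Fin 2) (Adl K)) * ((T5.ratG γ : G K) : Matrix _ _ _)
      = ((T5.ratG γ : G K) : Matrix _ _ _) * (x : Matrix (Fin 2) (Fin 2) (Adl K)) := by
    have := congrArg (fun g : G K => (g : Matrix (Fin 2) (Fin 2) (Adl K))) hxg
    simpa only [Units.val_mul] using this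
  have hym : (y : Matrix (Fin 2) (Fin 2) (Adl K)) * ((T5.ratG γ : G K) : Matrix _ _ _)
      = ((T5.ratG γ : G K) : Matrix _ _ _) * (y : Matrix (Fin 2) (Fin 2) (Adl K)) := by
    have := congrArg (fun g : G K => (g : Matrix (Fin 2) (Fin 2) (Adl K))) hyg
    simpa only [Units.val_mul] using this
  have hcomm := comm_of_comm_disc233 _ _ _ hDu hxm hym
  apply Units.ext
  simpa only [Units.val_mul] using hcomm

end Leaf

end Fermat.Agent.LT.T7.H233

end
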