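import Mathlib
import Fermat.Agent.LT.T7.H445.StepMSpec
import Fermat.Agent.LT.T2.H314.CommCore
import Fermat.Agent.LT.H11.LC

/-!
# Row LT, tower T7, node T7.L2.1.H2a.A.3 `StepMC981`, leaf M.6 `SphAvgC445` (helper233)

OFF-MAIN.  SPARE.  PROVED, UNCONDITIONAL (no hole, nothing assumed).  ADDITIVE (new names only,
suffix `233`).  Spec: `LT/T7/H445/StepMSpec.lean` (helper445, sha256 95c0ff93), byte-identical
copy with its closure.

    sphAvgC233 (K) : H445.SphAvgC445 K

Generic cores (any topological group `G`, any continuous family `Y : ℝ → ℝ → G`):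
`continuous_sphMean233` (joint continuity of the sphere means of a jointly continuous family),
`sphMean_ne_zero233` (a non-zero sphere mean sees the support), `sphMean_integral233` (Fubini).
-/

set_option autoImplicit false

open AutomorphicForm IsDedekindDomain NumberField MeasureTheory

noncomputable section

namespace Fermat.Agent.LT.T7.H233

open Fermat.Agent.LT.H556 Fermat.Agent.LT.H556.A0 Fermat.Agent.LT.T7

section Generic

variable {X G : Type} [TopologicalSpace X] [TopologicalSpace G] [Group G] [ContinuousMul G]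

/-- The inner integral of the sphere mean is jointly continuous. -/
theorem continuous_sphInner233 (Y : ℝ → ℝ → G) (hY : Continuous fun q : ℝ × ℝ => Y q.1 q.2)
    (ψ : X → G → ℂ) (hψ : Continuous fun p : X × G => ψ p.1 p.2) :
    Continuous fun q : (X × G) × ℝ => ∫ β in (0 : ℝ)..Real.pi,
      ψ q.1.1 (q.1.2 * Y q.2 β) * ((Real.sin β : ℝ) : ℂ) := by
  refine intervalIntegral.continuous_parametric_intervalIntegral_of_continuous'
    (f := fun (q : (X × G) × ℝ) (β : ℝ) => ψ q.1.1 (q.1.2 * Y q.2 β) * ((Real.sin β : ℝ) : ℂ))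
    ?_ 0 Real.pi
  have h1 : Continuous fun r : ((X × G) × ℝ) × ℝ => (r.1.1.1, r.1.1.2 * Y r.1.2 r.2) := by
    refine Continuous.prodMk (by fun_prop) ?_
    refine Continuous.mul (by fun_prop) ?_
    exact hY.comp (Continuous.prodMk (by fun_prop) (by fun_prop))
  have h2 : Continuous fun r : ((X × G) × ℝ) × ℝ => ((Real.sin r.2 : ℝ) : ℂ) :=
    Complex.continuous_ofReal.comp (Real.continuous_sin.comp continuous_snd)
  exact (hψ.comp h1).mul h2

/-- **Joint continuity of the sphere means** of a jointly continuous family. -/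
theorem continuous_sphMean233 (Y : ℝ → ℝ → G) (hY : Continuous fun q : ℝ × ℝ => Y q.1 q.2)
    (ψ : X → G → ℂ) (hψ : Continuous fun p : X × G => ψ p.1 p.2) :
    Continuous fun p : X × G => ∫ α in (0 : ℝ)..(2 * Real.pi), ∫ β in (0 : ℝ)..Real.pi,
      ψ p.1 (p.2 * Y α β) * ((Real.sin β : ℝ) : ℂ) :=
  intervalIntegral.continuous_parametric_intervalIntegral_of_continuous'
    (f := fun (p : X × G) (α : ℝ) => ∫ β in (0 : ℝ)..Real.pi,
      ψ p.1 (p.2 * Y α β) * ((Real.sin β : ℝ) : ℂ))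
    (continuous_sphInner233 Y hY ψ hψ) 0 (2 * Real.pi)

omit [TopologicalSpace G] [ContinuousMul G] in
/-- A non-zero sphere mean sees the support. -/
theorem sphMean_ne_zero233 (Y : ℝ → ℝ → G) (φ : G → ℂ) (g : G)
    (h : (∫ α in (0 : ℝ)..(2 * Real.pi), ∫ β in (0 : ℝ)..Real.pi,
      φ (g * Y α β) * ((Real.sin β : ℝ) : ℂ)) ≠ 0) :
    ∃ α ∈ Set.Icc (0 : ℝ) (2 * Real.pi), ∃ β ∈ Set.Icc (0 : ℝ) Real.pi, φ (g * Y α β) ≠ 0 := by
  by_contra hcon
  push Not at hcon
  apply h
  have h2pi : (0 : ℝ) ≤ 2 * Real.pi := by positivity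
  have hpi : (0 : ℝ) ≤ Real.pi := Real.pi_pos.le
  have : ∀ α ∈ Set.uIcc (0 : ℝ) (2 * Real.pi),
      (∫ β in (0 : ℝ)..Real.pi, φ (g * Y α β) * ((Real.sin β : ℝ) : ℂ))
        = (fun _ : ℝ => (0 : ℂ)) α := by
    intro α hα
    rw [Set.uIcc_of_le h2pi] at hα
    have : ∀ β ∈ Set.uIcc (0 : ℝ) Real.pi,
        φ (g * Y α β) * ((Real.sin β : ℝ) : ℂ) = (fun _ : ℝ => (0 : ℂ)) β := by
      intro β hβ
      rw [Set.uIcc_of_le hpi] at hβ
      simp [hcon α hα β hβ]
    rw [intervalIntegral.integral_congr this]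
    simp
  rw [intervalIntegral.integral_congr this]
  simp

end Generic

section Fubini

variable {Ω G : Type} [TopologicalSpace G] [Group G] [ContinuousMul G]
  [TopologicalSpace Ω] [SecondCountableTopology Ω] [MeasurableSpace Ω] [BorelSpace Ω]

/-- **Fubini for the sphere mean**: the sphere mean of an average is the average of the sphere
means (jointly continuous bounded family, finite measure). -/
theorem sphMean_integral233 (ν : Measure Ω) [IsFiniteMeasure ν] (Y : ℝ → ℝ → G)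
    (hY : Continuous fun q : ℝ × ℝ => Y q.1 q.2) (ψ : Ω → G → ℂ)
    (hψ : Continuous fun p : Ω × G => ψ p.1 p.2) (B : ℝ) (hB : ∀ a h, ‖ψ a h‖ ≤ B) (g : G) :
    (∫ α in (0 : ℝ)..(2 * Real.pi), ∫ β in (0 : ℝ)..Real.pi,
        (∫ a, ψ a (g * Y α β) ∂ν) * ((Real.sin β : ℝ) : ℂ))
      = ∫ a, (∫ α in (0 : ℝ)..(2 * Real.pi), ∫ β in (0 : ℝ)..Real.pi,
        ψ a (g * Y α β) * ((Real.sin β : ℝ) : ℂ)) ∂ν := by
  have hsin : ∀ β : ℝ, ‖((Real.sin β : ℝ) : ℂ)‖ ≤ 1 := by
    intro β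
    rw [Complex.norm_real]
    exact Real.abs_sin_le_one β
  have hF : ∀ (a : Ω) (α β : ℝ), ‖ψ a (g * Y α β) * ((Real.sin β : ℝ) : ℂ)‖ ≤ B := by
    intro a α β
    rw [norm_mul]
    calc ‖ψ a (g * Y α β)‖ * ‖((Real.sin β : ℝ) : ℂ)‖ ≤ ‖ψ a (g * Y α β)‖ * 1 :=
          mul_le_mul_of_nonneg_left (hsin β) (norm_nonneg _)
      _ ≤ B := by rw [mul_one]; exact hB _ _
  have hfin1 : IsFiniteMeasure (volume.restrict (Set.uIoc (0 : ℝ) Real.pi)) :=
    ⟨by simp [Set.uIoc, Real.volume_Ioc]⟩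
  have hfin2 : IsFiniteMeasure (volume.restrict (Set.uIoc (0 : ℝ) (2 * Real.pi))) :=
    ⟨by simp [Set.uIoc, Real.volume_Ioc]⟩
  -- the inner swap
  have hin : ∀ α : ℝ, (∫ β in (0 : ℝ)..Real.pi,
      (∫ a, ψ a (g * Y α β) ∂ν) * ((Real.sin β : ℝ) : ℂ))
      = ∫ a, (∫ β in (0 : ℝ)..Real.pi, ψ a (g * Y α β) * ((Real.sin β : ℝ) : ℂ)) ∂ν := by
    intro α
    have h1 : ∀ β : ℝ, (∫ a, ψ a (g * Y α β) ∂ν) * ((Real.sin β : ℝ) : ℂ)
        = ∫ a, ψ a (g * Y α β) * ((Real.sin β : ℝ) : ℂ) ∂ν :=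
      fun β => (integral_mul_const _ _).symm
    simp only [h1]
    refine intervalIntegral_integral_swap
      (f := fun (β : ℝ) (a : Ω) => ψ a (g * Y α β) * ((Real.sin β : ℝ) : ℂ)) ?_
    refine Integrable.of_bound (Continuous.aestronglyMeasurable ?_) B
      (Filter.Eventually.of_forall fun p => hF p.2 α p.1)
    have h2 : Continuous fun p : ℝ × Ω => (p.2, g * Y α p.1) :=
      Continuous.prodMk continuous_snd
        (continuous_const.mul (hY.comp (Continuous.prodMk continuous_const continuous_fst)))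
    exact (hψ.comp h2).mul
      (Complex.continuous_ofReal.comp (Real.continuous_sin.comp continuous_fst))
  simp only [hin]
  refine intervalIntegral_integral_swap
    (f := fun (α : ℝ) (a : Ω) => ∫ β in (0 : ℝ)..Real.pi,
      ψ a (g * Y α β) * ((Real.sin β : ℝ) : ℂ)) ?_
  refine Integrable.of_bound (Continuous.aestronglyMeasurable ?_) (B * |Real.pi - 0|)
    (Filter.Eventually.of_forall fun p =>
      intervalIntegral.norm_integral_le_of_norm_le_const fun β _ => hF p.2 p.1 β)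
  have h3 : Continuous fun p : ℝ × Ω => (((p.2, g), p.1) : (Ω × G) × ℝ) :=
    Continuous.prodMk (Continuous.prodMk continuous_snd continuous_const) continuous_fst
  exact (continuous_sphInner233 Y hY ψ hψ).comp h3

end Fubini

section Leaf

variable (K : Type) [Field K] [NumberField K]

/-- **LEAF M.6 = SPH-AVG**, the frozen Prop of helper445 VERBATIM. -/
theorem sphAvgC233 : H445.SphAvgC445 K := by
  intro w _ d Y hY Ω _ _ _ _ _ _ ν _ ψ hψ hC
  obtain ⟨C, hCc, hCs⟩ := hC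
  have : T2Space (G K) := Fermat.Agent.LT.H11.LC.t2Space_GL2_adeleRing_h11 K
  have hYc : Continuous fun q : ℝ × ℝ => Y q.1 q.2 :=
    Fermat.Agent.LT.T2.H314.continuous_sphere314 hY
  refine ⟨continuous_sphMean233 Y hYc ψ hψ, ?_, ?_⟩
  · refine ⟨(fun p : G K × (ℝ × ℝ) => p.1 * (Y p.2.1 p.2.2)⁻¹) ''
      (C ×ˢ (Set.Icc (0 : ℝ) (2 * Real.pi) ×ˢ Set.Icc (0 : ℝ) Real.pi)), ?_, ?_⟩
    · refine (hCc.prod (isCompact_Icc.prod isCompact_Icc)).image ?_
      exact continuous_fst.mul (hYc.comp continuous_snd).inv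
    · intro a h hne
      obtain ⟨α, hα, β, hβ, hne'⟩ := sphMean_ne_zero233 Y (ψ a) h hne
      refine ⟨(h * Y α β, (α, β)), ⟨hCs a _ hne', hα, hβ⟩, ?_⟩
      simp
  · intro h
    have hcs : HasCompactSupport fun p : Ω × G K => ψ p.1 p.2 := by
      refine HasCompactSupport.intro (isCompact_univ.prod hCc) ?_
      intro p hp
      by_contra hne
      exact hp ⟨Set.mem_univ _, hCs p.1 p.2 hne⟩
    obtain ⟨B, hB⟩ := hψ.bounded_above_of_compact_support hcs
    exact sphMean_integral233 ν Y hYc ψ hψ B (fun a h' => hB (a, h')) h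

end Leaf

end Fermat.Agent.LT.T7.H233

end
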